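import Mathlib
import Fermat.Agent.ModFun.Twist

set_option autoImplicit false
set_option maxHeartbeats 400000

/-!
# The Frobenius of Laurent series in characteristic `ℓ`
-/

namespace Fermat.Agent.HeckeQ

open ModularCurve Fermat.Agent.ModFun

section Power

variable {R : Type*} [CommRing R] (ℓ : ℕ) [hℓ : Fact ℓ.Prime] [CharP R ℓ]

instance instCharPPowerSeries : CharP (PowerSeries R) ℓ := by
  haveI := charP_of_injective_algebraMap (R := R) (A := PowerSeries R)
    (by
      intro a b h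
      have := congrArg (PowerSeries.constantCoeff (R := R)) h
      simpa using this) ℓ
  exact this

lemma powerSeries_pow_char (g : PowerSeries R) :
    g ^ ℓ = PowerSeries.expand ℓ hℓ.out.ne_zero (g.map (frobenius R ℓ)) := by
  let φ₁ : PowerSeries R →+* PowerSeries R := frobenius (PowerSeries R) ℓ
  let φ₂ : PowerSeries R →+* PowerSeries R :=
    (PowerSeries.expand ℓ hℓ.out.ne_zero : PowerSeries R →ₐ[R] PowerSeries R).toRingHom.comp
      (PowerSeries.map (frobenius R ℓ))
  have hX1 : φ₁ PowerSeries.X = PowerSeries.X ^ ℓ := rfl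
  have hX2 : φ₂ PowerSeries.X = PowerSeries.X ^ ℓ := by
    show PowerSeries.expand ℓ hℓ.out.ne_zero ((PowerSeries.X (R := R)).map (frobenius R ℓ)) = _
    rw [PowerSeries.map_X, PowerSeries.expand_X]
  have hpoly : φ₁.comp (Polynomial.coeToPowerSeries.ringHom (R := R)) =
      φ₂.comp Polynomial.coeToPowerSeries.ringHom := by
    refine Polynomial.ringHom_ext (fun a => ?_) ?_
    · rw [RingHom.comp_apply, RingHom.comp_apply, Polynomial.coeToPowerSeries.ringHom_apply,
        Polynomial.coe_C]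
      show (PowerSeries.C a) ^ ℓ =
        PowerSeries.expand ℓ hℓ.out.ne_zero ((PowerSeries.C a).map (frobenius R ℓ))
      rw [PowerSeries.map_C, PowerSeries.expand_C, frobenius_def, map_pow]
    · rw [RingHom.comp_apply, RingHom.comp_apply, Polynomial.coeToPowerSeries.ringHom_apply,
        Polynomial.coe_X, hX1, hX2]
  show φ₁ g = φ₂ g
  ext n
  have hg := PowerSeries.eq_X_pow_mul_shift_add_trunc (n + 1) g
  have hcoe : ∀ P : Polynomial R, φ₁ (P : PowerSeries R) = φ₂ (P : PowerSeries R) := fun P =>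
    RingHom.congr_fun hpoly P
  have hlt : n < ℓ * (n + 1) := by nlinarith [hℓ.out.two_le]
  have h1 : ∀ (φ : PowerSeries R →+* PowerSeries R), φ PowerSeries.X = PowerSeries.X ^ ℓ →
      PowerSeries.coeff n (φ g) = PowerSeries.coeff n (φ (PowerSeries.trunc (n + 1) g)) := by
    intro φ hφ
    conv_lhs => rw [hg]
    rw [map_add φ, map_mul φ, map_pow φ, hφ, map_add, ← pow_mul, PowerSeries.coeff_X_pow_mul',
      if_neg (by omega), zero_add]
  rw [h1 φ₁ hX1, h1 φ₂ hX2, hcoe]

end Power

section Laurent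

variable {R : Type*} [CommRing R] (ℓ : ℕ) [hℓ : Fact ℓ.Prime] [CharP R ℓ]

omit hℓ [CharP R ℓ] in
lemma qExpand_ofPowerSeries [NeZero ℓ] (g : PowerSeries R) :
    qExpand R ℓ (HahnSeries.ofPowerSeries ℤ R g) =
      HahnSeries.ofPowerSeries ℤ R (PowerSeries.expand ℓ (NeZero.ne ℓ) g) := by
  ext n
  by_cases h : (ℓ : ℤ) ∣ n
  · obtain ⟨m, rfl⟩ := h
    rw [qExpand_coeff_mul]
    rcases le_or_gt 0 m with hm | hm
    · lift m to ℕ using hm
      have : ((ℓ : ℤ) * (m : ℤ)) = ((ℓ * m : ℕ) : ℤ) := by push_cast; ring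
      rw [this, HahnSeries.ofPowerSeries_apply_coeff, HahnSeries.ofPowerSeries_apply_coeff,
        PowerSeries.coeff_expand_mul]
    · rw [ofPowerSeries_coeff_of_neg _ hm, ofPowerSeries_coeff_of_neg]
      have : (0 : ℤ) < ℓ := by exact_mod_cast Nat.pos_of_ne_zero (NeZero.ne ℓ)
      nlinarith
  · rw [qExpand_coeff_of_not_dvd ℓ _ h]
    rcases le_or_gt 0 n with hn | hn
    · lift n to ℕ using hn
      rw [HahnSeries.ofPowerSeries_apply_coeff, PowerSeries.coeff_expand_of_not_dvd]
      exact fun h' => h (by exact_mod_cast h')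
    · rw [ofPowerSeries_coeff_of_neg _ hn]

omit hℓ [CharP R ℓ] in
lemma exists_eq_single_mul_ofPowerSeries (f : LaurentSeries R) :
    ∃ (k : ℤ) (g : PowerSeries R), f = HahnSeries.single k 1 * HahnSeries.ofPowerSeries ℤ R g := by
  refine ⟨f.order, LaurentSeries.powerSeriesPart f, ?_⟩
  exact (LaurentSeries.single_order_mul_powerSeriesPart f).symm

/-- In characteristic `ℓ`, `f(q)^ℓ = f^{(ℓ)}(q^ℓ)`. -/
theorem laurent_pow_char [NeZero ℓ] (f : LaurentSeries R) :
    f ^ ℓ = qExpand R ℓ (coeffMap (frobenius R ℓ) f) := by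
  obtain ⟨k, g, rfl⟩ := exists_eq_single_mul_ofPowerSeries f
  rw [mul_pow, map_mul, map_mul, coeffMap_single, map_one (frobenius R ℓ), qExpand_single,
    coeffMap_ofPowerSeries, qExpand_ofPowerSeries, ← powerSeries_pow_char, map_pow,
    HahnSeries.single_pow, one_pow, nsmul_eq_mul]

end Laurent

end Fermat.Agent.HeckeQ
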