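import Mathlib
import Fermat.Agent.HeckeQ.Frob

set_option autoImplicit false
set_option maxHeartbeats 400000

/-!
# The multiplicative Hecke operator on Laurent series

`hW ℓ u` is the series with `(hW ℓ u)(q^ℓ) = ∏_{ξ^ℓ = 1} u(ξ q)` and
`hM ℓ u = u(q^ℓ) · hW ℓ u`.
-/

namespace Fermat.Agent.HeckeQ

open ModularCurve Fermat.Agent.ModFun

section Def

variable {R : Type*} [CommRing R] [IsDomain R] (ℓ : ℕ) [NeZero ℓ]

noncomputable instance instFintypeRoots : Fintype (rootsOfUnity ℓ R) :=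
  Fintype.ofFinite _

/-- `∏_{ξ^ℓ = 1} u(ξ q)` -/
noncomputable def prodTwist (u : LaurentSeries R) : LaurentSeries R :=
  ∏ ξ : rootsOfUnity ℓ R, twist (ξ : Rˣ) u

lemma twist_prodTwist {ζ : Rˣ} (hζ : ζ ^ ℓ = 1) (u : LaurentSeries R) :
    twist ζ (prodTwist ℓ u) = prodTwist ℓ u := by
  rw [prodTwist, map_prod]
  simp only [twist_twist]
  let z : rootsOfUnity ℓ R := ⟨ζ, (mem_rootsOfUnity ℓ ζ).mpr hζ⟩
  exact Fintype.prod_equiv (Equiv.mulLeft z) _ _ fun x => rfl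

lemma prodTwist_mul (u v : LaurentSeries R) :
    prodTwist ℓ (u * v) = prodTwist ℓ u * prodTwist ℓ v := by
  simp only [prodTwist, map_mul, Finset.prod_mul_distrib]

lemma prodTwist_one : prodTwist ℓ (1 : LaurentSeries R) = 1 := by
  simp only [prodTwist, map_one, Finset.prod_const_one]

/-- the product over the powers of a primitive root of unity -/
lemma prod_rootsOfUnity {M : Type*} [CommMonoid M] {ζ : Rˣ} (hζ : IsPrimitiveRoot ζ ℓ)
    (F : Rˣ → M) : ∏ ξ : rootsOfUnity ℓ R, F ξ = ∏ j ∈ Finset.range ℓ, F (ζ ^ j) := by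
  classical
  rw [← Fin.prod_univ_eq_prod_range (fun j => F (ζ ^ j)) ℓ]
  symm
  refine Fintype.prod_bijective (fun j : Fin ℓ => (⟨ζ ^ (j : ℕ), (mem_rootsOfUnity ℓ _).mpr (by
    rw [← pow_mul, mul_comm, pow_mul, hζ.pow_eq_one, one_pow])⟩ : rootsOfUnity ℓ R)) ?_ _ _
    fun x => rfl
  constructor
  · intro i j hij
    have h := congrArg (fun x : rootsOfUnity ℓ R => (x : Rˣ)) hij
    exact Fin.ext (hζ.pow_inj i.2 j.2 h)
  · rintro ⟨ξ, hξ⟩
    rw [mem_rootsOfUnity] at hξ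
    obtain ⟨i, hi, hi'⟩ := (hζ.map_of_injective (f := Units.coeHom R)
      Units.val_injective).eq_pow_of_pow_eq_one (ξ := (ξ : R)) (by
        rw [← Units.val_pow_eq_pow_val, hξ, Units.val_one])
    exact ⟨⟨i, hi⟩, Subtype.ext (Units.ext (by simpa using hi'))⟩

lemma prodTwist_eq_range {ζ : Rˣ} (hζ : IsPrimitiveRoot ζ ℓ) (u : LaurentSeries R) :
    prodTwist ℓ u = ∏ j ∈ Finset.range ℓ, twist (ζ ^ j) u :=
  prod_rootsOfUnity ℓ hζ fun ξ => twist ξ u

variable (R) in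
/-- existence of a primitive root of unity -/
class HasPrim : Prop where
  ex : ∃ ζ : Rˣ, IsPrimitiveRoot ζ ℓ

lemma exists_hW [h : HasPrim R ℓ] (u : LaurentSeries R) :
    ∃ w : LaurentSeries R, qExpand R ℓ w = prodTwist ℓ u := by
  obtain ⟨ζ, hζ⟩ := h.ex
  exact exists_qExpand_of_twist ζ ℓ hζ _ (twist_prodTwist ℓ hζ.pow_eq_one u)

/-- `w(q) = ∏_{ξ^ℓ = 1} u(ξ q^{1/ℓ})` -/
noncomputable def hW [HasPrim R ℓ] (u : LaurentSeries R) : LaurentSeries R :=
  (exists_hW ℓ u).choose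

variable [HasPrim R ℓ]

lemma qExpand_hW (u : LaurentSeries R) : qExpand R ℓ (hW ℓ u) = prodTwist ℓ u :=
  (exists_hW ℓ u).choose_spec

omit [IsDomain R] [HasPrim R ℓ] in
lemma qExpand_inj : Function.Injective (qExpand R ℓ) := by
  intro a b h
  ext n
  have := congrArg (fun F => HahnSeries.coeff F ((ℓ : ℤ) * n)) h
  simpa only [qExpand_coeff_mul] using this

lemma hW_unique {u w : LaurentSeries R} (h : qExpand R ℓ w = prodTwist ℓ u) : w = hW ℓ u :=
  qExpand_inj ℓ (by rw [h, qExpand_hW])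

lemma hW_mul (u v : LaurentSeries R) : hW ℓ (u * v) = hW ℓ u * hW ℓ v :=
  (hW_unique ℓ (by rw [map_mul, qExpand_hW, qExpand_hW, prodTwist_mul])).symm

lemma hW_one : hW ℓ (1 : LaurentSeries R) = 1 :=
  (hW_unique ℓ (by rw [map_one, prodTwist_one])).symm

/-- the multiplicative Hecke operator -/
noncomputable def hM (u : LaurentSeries R) : LaurentSeries R := qExpand R ℓ u * hW ℓ u

lemma hM_mul (u v : LaurentSeries R) : hM ℓ (u * v) = hM ℓ u * hM ℓ v := by
  rw [hM, hM, hM, map_mul, hW_mul]; ring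

lemma hM_one : hM ℓ (1 : LaurentSeries R) = 1 := by
  rw [hM, map_one, hW_one, one_mul]

lemma hM_pow (u : LaurentSeries R) (n : ℕ) : hM ℓ (u ^ n) = hM ℓ u ^ n := by
  induction n with
  | zero => rw [pow_zero, pow_zero, hM_one]
  | succ n ih => rw [pow_succ, hM_mul, ih, pow_succ]

omit [IsDomain R] [HasPrim R ℓ] in
lemma twist_ne_zero (ζ : Rˣ) {u : LaurentSeries R} (hu : u ≠ 0) : twist ζ u ≠ 0 := by
  intro h
  apply hu
  have := congrArg (twist ζ⁻¹) h
  rwa [twist_twist, inv_mul_cancel, twist_one, map_zero] at this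

lemma hW_ne_zero {u : LaurentSeries R} (hu : u ≠ 0) : hW ℓ u ≠ 0 := by
  intro h
  have h1 := qExpand_hW ℓ u
  rw [h, map_zero, prodTwist] at h1
  obtain ⟨ξ, -, hξ⟩ := Finset.prod_eq_zero_iff.mp h1.symm
  exact twist_ne_zero (ξ : Rˣ) hu hξ

lemma hM_ne_zero {u : LaurentSeries R} (hu : u ≠ 0) : hM ℓ u ≠ 0 :=
  mul_ne_zero (fun h => hu (qExpand_inj ℓ (h.trans (map_zero _).symm))) (hW_ne_zero ℓ hu)

end Def

section Map

variable {R S : Type*} [CommRing R] [IsDomain R] [CommRing S] [IsDomain S] (ℓ : ℕ) [NeZero ℓ]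
  [hR : HasPrim R ℓ] [HasPrim S ℓ] (f : R →+* S) (hf : Function.Injective f)

include hf hR in
lemma coeffMap_prodTwist (u : LaurentSeries R) :
    coeffMap f (prodTwist ℓ u) = prodTwist ℓ (coeffMap f u) := by
  obtain ⟨ζ, hζ⟩ := hR.ex
  have hζ' : IsPrimitiveRoot (Units.map (f : R →* S) ζ) ℓ :=
    hζ.map_of_injective (Units.map_injective hf)
  rw [prodTwist_eq_range ℓ hζ, prodTwist_eq_range ℓ hζ', map_prod]
  refine Finset.prod_congr rfl fun j _ => ?_
  rw [coeffMap_twist, map_pow]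

include hf in
lemma coeffMap_hW (u : LaurentSeries R) : coeffMap f (hW ℓ u) = hW ℓ (coeffMap f u) :=
  hW_unique ℓ (by rw [← coeffMap_qExpand, qExpand_hW, coeffMap_prodTwist ℓ f hf])

include hf in
lemma coeffMap_hM (u : LaurentSeries R) : coeffMap f (hM ℓ u) = hM ℓ (coeffMap f u) := by
  rw [hM, hM, map_mul, coeffMap_hW ℓ f hf, coeffMap_qExpand]

end Map

section Red

variable {R κ : Type*} [CommRing R] [IsDomain R] [CommRing κ] [IsDomain κ] (ℓ : ℕ) [NeZero ℓ]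
  [hℓ : Fact ℓ.Prime] [CharP κ ℓ] [hR : HasPrim R ℓ] (π : R →+* κ)

omit [IsDomain R] [NeZero ℓ] hR in
/-- `ℓ`-power roots of unity reduce to `1` in characteristic `ℓ` -/
lemma map_root_eq_one {ξ : Rˣ} (hξ : ξ ^ ℓ = 1) : Units.map (π : R →* κ) ξ = 1 := by
  ext
  have h1 : (π (ξ : R)) ^ ℓ = 1 ^ ℓ := by
    rw [← map_pow, ← Units.val_pow_eq_pow_val, hξ, Units.val_one, map_one, one_pow]
  exact frobenius_inj κ ℓ h1

/-- the reduction of `hW` -/
lemma red_hW (u : LaurentSeries R) :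
    coeffMap π (hW ℓ u) = coeffMap (frobenius κ ℓ) (coeffMap π u) := by
  obtain ⟨ζ, hζ⟩ := hR.ex
  apply qExpand_inj ℓ
  rw [← coeffMap_qExpand, qExpand_hW, ← laurent_pow_char, prodTwist_eq_range ℓ hζ, map_prod]
  have : ∀ j ∈ Finset.range ℓ, coeffMap π (twist (ζ ^ j) u) = coeffMap π u := by
    intro j _
    rw [coeffMap_twist, map_root_eq_one ℓ π (by
      rw [← pow_mul, mul_comm, pow_mul, hζ.pow_eq_one, one_pow]), twist_one]
  rw [Finset.prod_congr rfl this, Finset.prod_const, Finset.card_range]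

/-- the reduction of `hM` -/
lemma red_hM (u : LaurentSeries R) :
    coeffMap π (hM ℓ u) = qExpand κ ℓ (coeffMap π u) *
      coeffMap (frobenius κ ℓ) (coeffMap π u) := by
  rw [hM, map_mul, red_hW, coeffMap_qExpand]

end Red

end Fermat.Agent.HeckeQ
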