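import Mathlib
import Fermat.Agent.HeckeQ.Basic
import Fermat.Agent.AnJac.Canon
import Fermat.Agent.GoodRed.ModKL
import Fermat.Agent.GalRep.Cyclo

set_option autoImplicit false
set_option maxHeartbeats 400000

/-!
# Reduction of modular functions and the Eichler-Shimura congruence on `q`-expansions
-/

namespace Fermat.Agent.HeckeQ

open ModularCurve Fermat.Agent.ModFun Fermat.Agent.AnJac AlgebraicCurve IsLocalRing
open scoped Pointwise

local notation "Qbar" => AlgebraicClosure ℚ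
local notation "GQ" => Qbar ≃ₐ[ℚ] Qbar

instance hasPrim_Qbar (ℓ : ℕ) [NeZero ℓ] : HasPrim Qbar ℓ := by
  haveI : NeZero (ℓ : Qbar) := ⟨by exact_mod_cast NeZero.ne ℓ⟩
  obtain ⟨ζ, hζ⟩ := HasEnoughRootsOfUnity.exists_primitiveRoot Qbar ℓ
  refine ⟨⟨(hζ.isUnit (NeZero.ne ℓ)).unit, ?_⟩⟩
  exact IsPrimitiveRoot.coe_units_iff.mp (by simpa using hζ)

instance hasPrim_val (A : ValuationSubring Qbar) (ℓ : ℕ) [NeZero ℓ] : HasPrim A ℓ := by
  obtain ⟨ζ, hζ⟩ := (hasPrim_Qbar ℓ).ex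
  have hζ' : IsPrimitiveRoot (ζ : Qbar) ℓ := IsPrimitiveRoot.coe_units_iff.mpr hζ
  have hmem : (ζ : Qbar) ∈ A := by
    refine GalRep.mem_of_pow_eq_one (NeZero.ne ℓ) hζ'.pow_eq_one
  have h1 : IsPrimitiveRoot (⟨(ζ : Qbar), hmem⟩ : A) ℓ :=
    hζ'.of_map_of_injective (f := A.subtype) A.subtype_injective
  refine ⟨⟨(h1.isUnit (NeZero.ne ℓ)).unit, ?_⟩⟩
  exact IsPrimitiveRoot.coe_units_iff.mp (by simpa using h1)

section Rd

variable {A : ValuationSubring Qbar} {ℓ : ℕ}

/-- `u` reduces to `ub`: `u = f/g` with `f, g` integral -/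
def Rd (A : ValuationSubring Qbar) (u : LaurentSeries Qbar)
    (ub : LaurentSeries (ResidueField A)) : Prop :=
  GoodRed.LR (residue A) u ub

lemma Rd.mul {u v : LaurentSeries Qbar} {ub vb : LaurentSeries (ResidueField A)}
    (hu : Rd A u ub) (hv : Rd A v vb) : Rd A (u * v) (ub * vb) := GoodRed.LR.mul hu hv

lemma Rd.one : Rd A 1 1 := GoodRed.LR.one _

lemma Rd.pow {u : LaurentSeries Qbar} {ub : LaurentSeries (ResidueField A)}
    (hu : Rd A u ub) (n : ℕ) : Rd A (u ^ n) (ub ^ n) := by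
  induction n with
  | zero => rw [pow_zero, pow_zero]; exact Rd.one
  | succ n ih => rw [pow_succ, pow_succ]; exact ih.mul hu

lemma Rd.ne_zero {u : LaurentSeries Qbar} {ub : LaurentSeries (ResidueField A)}
    (hu : Rd A u ub) (h : ub ≠ 0) : u ≠ 0 := by
  obtain ⟨f, g, hg, h1, h2⟩ := hu
  rintro rfl
  rw [mul_zero] at h1
  have : f = 0 := GoodRed.coeffMap_injective A.subtype_injective (by rw [← h1, map_zero])
  rw [this, map_zero] at h2
  rcases mul_eq_zero.mp h2 with h3 | h3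
  · exact hg h3
  · exact h h3

lemma coeffMap_ne_zero {R S : Type*} [CommRing R] [CommRing S] {f : R →+* S}
    (hf : Function.Injective f) {x : LaurentSeries R} (hx : x ≠ 0) : coeffMap f x ≠ 0 := fun h =>
  hx (GoodRed.coeffMap_injective hf (by rw [h, map_zero]))

lemma Rd.hM [NeZero ℓ] [Fact ℓ.Prime] [CharP (ResidueField A) ℓ] {u : LaurentSeries Qbar}
    {ub : LaurentSeries (ResidueField A)} (hu : Rd A u ub) :
    Rd A (hM ℓ u) (qExpand _ ℓ ub * coeffMap (frobenius _ ℓ) ub) := by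
  obtain ⟨f, g, hg, h1, h2⟩ := hu
  refine ⟨HeckeQ.hM ℓ f, HeckeQ.hM ℓ g, ?_, ?_, ?_⟩
  · rw [red_hM]
    exact mul_ne_zero (fun h => hg (qExpand_inj ℓ (h.trans (map_zero _).symm)))
      (coeffMap_ne_zero (frobenius_inj _ ℓ) hg)
  · rw [coeffMap_hM ℓ _ A.subtype_injective, ← hM_mul, h1, coeffMap_hM ℓ _ A.subtype_injective]
  · rw [red_hM, red_hM, ← h2, map_mul, map_mul]
    ring

/-- the automorphism of `A` given by an element of the decomposition group -/
noncomputable def actA (g : GQ) (hg : g • A = A) : A ≃+* A :=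
  MulSemiringAction.toRingEquiv (A.decompositionSubgroup ℚ) A ⟨g, hg⟩

lemma coe_actA (g : GQ) (hg : g • A = A) (x : A) : ((actA g hg x : A) : Qbar) = g x := rfl

lemma coeffMap_actA (g : GQ) (hg : g • A = A) (y : LaurentSeries A) :
    coeffMap A.subtype (coeffMap (actA g hg : A →+* A) y) =
      coeffMap (g : Qbar →+* Qbar) (coeffMap A.subtype y) := by
  ext n
  simp only [coeffMap_coeff]
  exact coe_actA g hg _

/-- action on the residue field -/
noncomputable def actK (g : GQ) (hg : g • A = A) : ResidueField A ≃+* ResidueField A :=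
  IsLocalRing.ResidueField.mapEquiv (actA g hg)

lemma actK_residue (g : GQ) (hg : g • A = A) (x : A) :
    actK g hg (residue A x) = residue A (actA g hg x) := rfl

lemma coeffMap_actK (g : GQ) (hg : g • A = A) (y : LaurentSeries A) :
    coeffMap (residue A) (coeffMap (actA g hg : A →+* A) y) =
      coeffMap (actK g hg : _ →+* ResidueField A) (coeffMap (residue A) y) := by
  ext n
  simp only [coeffMap_coeff]
  rfl

lemma Rd.gal {u : LaurentSeries Qbar} {ub : LaurentSeries (ResidueField A)} (hu : Rd A u ub)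
    (g : GQ) (hg : g • A = A) :
    Rd A (coeffMap (g : Qbar →+* Qbar) u) (coeffMap (actK g hg : _ →+* ResidueField A) ub) := by
  obtain ⟨f, h, hh, h1, h2⟩ := hu
  refine ⟨coeffMap (actA g hg : A →+* A) f, coeffMap (actA g hg : A →+* A) h, ?_, ?_, ?_⟩
  · rw [coeffMap_actK]
    exact coeffMap_ne_zero (actK g hg).injective hh
  · rw [coeffMap_actA, coeffMap_actA, ← map_mul, h1]
  · rw [coeffMap_actK, coeffMap_actK, ← map_mul, h2]

lemma actK_frob {τ : GQ} (hτ : A.IsFrobeniusAt τ ℓ) (x : ResidueField A) :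
    actK τ hτ.mem_decompositionSubgroup x = x ^ ℓ := by
  rw [← hτ.smul_residue_eq x]
  obtain ⟨y, rfl⟩ := residue_surjective x
  rfl

lemma inv_smul_eq {τ : GQ} (hτ : τ • A = A) : τ⁻¹ • A = A := by
  conv_lhs => rw [← hτ]
  rw [inv_smul_smul]

lemma actK_inv_frob {τ : GQ} (hτ : A.IsFrobeniusAt τ ℓ) (x : ResidueField A) :
    (actK τ⁻¹ (inv_smul_eq hτ.mem_decompositionSubgroup) x) ^ ℓ = x := by
  rw [← actK_frob hτ]
  obtain ⟨y, rfl⟩ := residue_surjective x
  rw [actK_residue, actK_residue]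
  congr 1
  apply Subtype.ext
  rw [coe_actA, coe_actA]
  exact τ.apply_symm_apply (y : Qbar)

lemma actK_inertia {σ : GQ} (hσ : σ ∈ A.inertiaSubgroupIn ℚ) :
    ∃ h : σ • A = A, ∀ x, actK σ h x = x := by
  obtain ⟨⟨σ', hσ'⟩, h1, h2⟩ := hσ
  have h3 : σ' = σ := h2
  subst h3
  refine ⟨hσ', fun x => ?_⟩
  have h4 : (⟨σ', hσ'⟩ : A.decompositionSubgroup ℚ) ∈ MonoidHom.ker _ := h1
  rw [MonoidHom.mem_ker] at h4
  have h5 := DFunLike.congr_fun h4 x
  obtain ⟨y, rfl⟩ := residue_surjective x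
  exact h5

end Rd

end Fermat.Agent.HeckeQ
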