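import Mathlib
import Fermat.Agent.HeckeQ.Red

set_option autoImplicit false
set_option maxHeartbeats 400000

/-!
# The Eichler-Shimura relation modulo `m`-th powers
-/

namespace Fermat.Agent.HeckeQ

open ModularCurve Fermat.Agent.ModFun Fermat.Agent.AnJac AlgebraicCurve IsLocalRing
open Fermat.Agent.Curves
open scoped Pointwise

local notation "Qbar" => AlgebraicClosure ℚ
local notation "GQ" => Qbar ≃ₐ[ℚ] Qbar

/-- reduction input: scaling to nonzero reduction, and the Kummer lemma (injectivity of the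
reduction on classes of functions modulo `m`-th powers) -/
structure RedHyp (A : ValuationSubring Qbar) (N m : ℕ) : Prop where
  scale : ∀ u : modularFunctionFieldFullC Qbar N, u ≠ 0 → ∃ c : Qbar, c ≠ 0 ∧
    ∃ ub : modularFunctionFieldFullC (ResidueField A) N, ub ≠ 0 ∧
      Rd A ((algebraMap Qbar (modularFunctionFieldFullC Qbar N) c * u :
        modularFunctionFieldFullC Qbar N) : LaurentSeries Qbar) ub
  kl : ∀ u : modularFunctionFieldFullC Qbar N,
    (∀ P : Place Qbar (modularFunctionFieldFullC Qbar N), (m : ℤ) ∣ P.ord u) →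
    ∀ gb : modularFunctionFieldFullC (ResidueField A) N, gb ≠ 0 →
      Rd A u ((gb : LaurentSeries (ResidueField A)) ^ m) →
      ∃ w : modularFunctionFieldFullC Qbar N, u = w ^ m

/-- action of the Galois group on modular functions through coefficients -/
noncomputable def gal (N : ℕ) (g : GQ) :
    modularFunctionFieldFullC Qbar N ≃+* modularFunctionFieldFullC Qbar N :=
  galF N (g : Qbar ≃+* Qbar)

lemma coe_gal {N : ℕ} (g : GQ) (x : modularFunctionFieldFullC Qbar N) :
    (gal N g x : LaurentSeries Qbar) = coeffMap (g : Qbar →+* Qbar) (x : LaurentSeries Qbar) := rfl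

variable {A : ValuationSubring Qbar} {ℓ N m : ℕ}

section Cls

/-- all orders are divisible by `m` -/
def Dv (m : ℕ) (u : modularFunctionFieldFullC Qbar N) : Prop :=
  ∀ P : Place Qbar (modularFunctionFieldFullC Qbar N), (m : ℤ) ∣ P.ord u

lemma Dv.mul {u v : modularFunctionFieldFullC Qbar N} (hu0 : u ≠ 0) (hv0 : v ≠ 0)
    (hu : Dv m u) (hv : Dv m v) : Dv m (u * v) := fun P => by
  rw [P.ord_mul hu0 hv0]
  exact dvd_add (hu P) (hv P)

lemma Dv.pow {u : modularFunctionFieldFullC Qbar N} (hu : Dv m u) (n : ℕ) : Dv m (u ^ n) :=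
  fun P => by
    rw [ord_pow]
    exact (hu P).mul_left _

lemma Dv.const {c : Qbar} : Dv m (algebraMap Qbar (modularFunctionFieldFullC Qbar N) c) :=
  fun P => by rw [ord_algebraMap]; exact dvd_zero _

lemma Dv.gal {u : modularFunctionFieldFullC Qbar N} (hu : Dv m u) (g : GQ) :
    Dv m (gal N g u) := dvd_galF hu _

/-- congruence modulo `m`-th powers -/
def Cg (m : ℕ) (u v : modularFunctionFieldFullC Qbar N) : Prop :=
  ∃ w : modularFunctionFieldFullC Qbar N, w ≠ 0 ∧ u = v * w ^ m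

lemma Cg.refl (u : modularFunctionFieldFullC Qbar N) : Cg m u u :=
  ⟨1, one_ne_zero, by rw [one_pow, mul_one]⟩

lemma Cg.symm {u v : modularFunctionFieldFullC Qbar N} (h : Cg m u v) : Cg m v u := by
  obtain ⟨w, hw, rfl⟩ := h
  refine ⟨w⁻¹, inv_ne_zero hw, ?_⟩
  rw [inv_pow, mul_assoc, mul_inv_cancel₀ (pow_ne_zero m hw), mul_one]

lemma Cg.trans {u v x : modularFunctionFieldFullC Qbar N} (h : Cg m u v) (h' : Cg m v x) :
    Cg m u x := by
  obtain ⟨w, hw, rfl⟩ := h
  obtain ⟨w', hw', rfl⟩ := h'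
  exact ⟨w' * w, mul_ne_zero hw' hw, by rw [mul_pow]; ring⟩

lemma Cg.mul {u v u' v' : modularFunctionFieldFullC Qbar N} (h : Cg m u v) (h' : Cg m u' v') :
    Cg m (u * u') (v * v') := by
  obtain ⟨w, hw, rfl⟩ := h
  obtain ⟨w', hw', rfl⟩ := h'
  exact ⟨w * w', mul_ne_zero hw hw', by rw [mul_pow]; ring⟩

lemma Cg.pow {u v : modularFunctionFieldFullC Qbar N} (h : Cg m u v) (n : ℕ) :
    Cg m (u ^ n) (v ^ n) := by
  obtain ⟨w, hw, rfl⟩ := h
  exact ⟨w ^ n, pow_ne_zero n hw, by rw [mul_pow]; ring⟩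

lemma Cg.gal {u v : modularFunctionFieldFullC Qbar N} (h : Cg m u v) (g : GQ) :
    Cg m (gal N g u) (gal N g v) := by
  obtain ⟨w, hw, rfl⟩ := h
  exact ⟨HeckeQ.gal N g w, (map_ne_zero _).mpr hw, by rw [map_mul, map_pow]⟩

/-- nonzero constants are `m`-th powers -/
lemma Cg.const (hm : m ≠ 0) {c : Qbar} (hc : c ≠ 0) :
    Cg m (algebraMap Qbar (modularFunctionFieldFullC Qbar N) c) 1 := by
  obtain ⟨d, hd⟩ := IsAlgClosed.exists_pow_nat_eq c (Nat.pos_of_ne_zero hm)
  refine ⟨algebraMap Qbar _ d, ?_, by rw [one_mul, ← map_pow, hd]⟩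
  rw [Ne, map_eq_zero]
  rintro rfl
  rw [zero_pow hm] at hd
  exact hc hd.symm

end Cls

/-- two functions with divisors divisible by `m` and the same nonzero reduction are congruent -/
theorem RedHyp.cg_of_red (H : RedHyp A N m) (hm : m ≠ 0) {u v : modularFunctionFieldFullC Qbar N}
    (hu : Dv m u) (hv : Dv m v) {ub : modularFunctionFieldFullC (ResidueField A) N} (hub : ub ≠ 0)
    (h : Rd A u ub) (h' : Rd A v ub) : Cg m u v := by
  have hub' : (ub : LaurentSeries (ResidueField A)) ≠ 0 := fun h => hub (Subtype.ext h)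
  have hu0 : u ≠ 0 := fun h0 => h.ne_zero hub' (congrArg Subtype.val h0)
  have hv0 : v ≠ 0 := fun h0 => h'.ne_zero hub' (congrArg Subtype.val h0)
  obtain ⟨k, rfl⟩ := Nat.exists_eq_succ_of_ne_zero hm
  have h1 : Rd A ((u * v ^ k : modularFunctionFieldFullC Qbar N) : LaurentSeries Qbar)
      ((ub : LaurentSeries (ResidueField A)) ^ (k + 1)) := by
    rw [pow_succ']
    exact h.mul (h'.pow k)
  obtain ⟨w, hw⟩ := H.kl (u * v ^ k) (hu.mul hu0 (pow_ne_zero k hv0) (hv.pow k)) ub hub h1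
  have hw0 : w ≠ 0 := by
    rintro rfl
    rw [zero_pow (Nat.succ_ne_zero k)] at hw
    exact mul_ne_zero hu0 (pow_ne_zero k hv0) hw
  refine ⟨w / v, div_ne_zero hw0 hv0, ?_⟩
  rw [div_pow, ← hw, pow_succ' v k]
  field_simp

lemma hM_const [NeZero ℓ] (c : Qbar) (u : LaurentSeries Qbar) :
    hM ℓ (HahnSeries.C c * u) = HahnSeries.C (c ^ (ℓ + 1)) * hM ℓ u := by
  rw [hM_mul]
  congr 1
  rw [hM, qExpand_C]
  have h1 : hW ℓ (HahnSeries.C c : LaurentSeries Qbar) = HahnSeries.C (c ^ ℓ) := by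
    symm
    apply hW_unique
    obtain ⟨ζ, hζ⟩ := (hasPrim_Qbar ℓ).ex
    rw [qExpand_C, prodTwist_eq_range ℓ hζ, Finset.prod_congr rfl fun j _ => twist_C _ _,
      Finset.prod_const, Finset.card_range, map_pow]
  rw [h1, ← map_mul, pow_succ']

/-- **Eichler-Shimura** on classes of functions modulo `m`-th powers. -/
theorem RedHyp.hM_cg (H : RedHyp A N m) (hm : m ≠ 0) [NeZero ℓ] (hℓ : ℓ.Prime)
    (hA : A.LiesOverPrime ℓ) {τ : GQ} (hτ : A.IsFrobeniusAt τ ℓ)
    {u v : modularFunctionFieldFullC Qbar N} (hu0 : u ≠ 0) (hu : Dv m u)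
    (hv : Dv m v) (huv : (v : LaurentSeries Qbar) = hM ℓ (u : LaurentSeries Qbar)) :
    Cg m v (gal N τ u * gal N τ⁻¹ u ^ ℓ) := by
  haveI : Fact ℓ.Prime := ⟨hℓ⟩
  haveI : CharP (ResidueField A) ℓ := FrobDens.charP_residueField A hℓ hA
  obtain ⟨c, hc, ub, hub, hR⟩ := H.scale u hu0
  set cF : modularFunctionFieldFullC Qbar N := algebraMap Qbar (modularFunctionFieldFullC Qbar N) c with hcF
  have hcF0 : cF ≠ 0 := by rw [hcF, Ne, map_eq_zero]; exact hc
  have hub' : (ub : LaurentSeries (ResidueField A)) ≠ 0 := fun h => hub (Subtype.ext h)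
  -- the left-hand side
  set c1 : modularFunctionFieldFullC Qbar N := algebraMap Qbar (modularFunctionFieldFullC Qbar N) (c ^ (ℓ + 1)) with hc1
  have hcoe : ((cF * u : modularFunctionFieldFullC Qbar N) : LaurentSeries Qbar) = HahnSeries.C c * (u : LaurentSeries Qbar) := by
    rw [C_eq_algebraMap]; rfl
  have hcoe1 : ((c1 * v : modularFunctionFieldFullC Qbar N) : LaurentSeries Qbar) = hM ℓ ((cF * u : modularFunctionFieldFullC Qbar N) : LaurentSeries Qbar) := by
    rw [hcoe, hM_const, ← huv, C_eq_algebraMap]; rfl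
  have hL := hR.hM (ℓ := ℓ)
  rw [← hcoe1] at hL
  -- the right-hand side
  set hdec := hτ.mem_decompositionSubgroup with hhdec
  have hR1 := hR.gal τ hdec
  have hR2 := (hR.gal τ⁻¹ (inv_smul_eq hdec)).pow ℓ
  have hRR := hR2.mul hR1
  -- comparison of reductions
  have e1 : coeffMap (actK τ hdec : _ →+* ResidueField A) (ub : LaurentSeries (ResidueField A)) =
      coeffMap (frobenius _ ℓ) (ub : LaurentSeries (ResidueField A)) := by
    ext n
    simp only [coeffMap_coeff]
    exact actK_frob hτ _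
  have e2 : (coeffMap (actK τ⁻¹ (inv_smul_eq hdec) : _ →+* ResidueField A)
      (ub : LaurentSeries (ResidueField A))) ^ ℓ =
        qExpand _ ℓ (ub : LaurentSeries (ResidueField A)) := by
    rw [laurent_pow_char]
    congr 1
    ext n
    simp only [coeffMap_coeff]
    exact actK_inv_frob hτ _
  rw [e1, e2] at hRR
  -- membership
  let wb : modularFunctionFieldFullC (ResidueField A) N :=
    (coeffF N (actK τ⁻¹ (inv_smul_eq hdec) : _ →+* ResidueField A) ub) ^ ℓ *
      coeffF N (frobenius _ ℓ) ub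
  have hwb : (wb : LaurentSeries (ResidueField A)) =
      qExpand _ ℓ (ub : LaurentSeries (ResidueField A)) *
        coeffMap (frobenius _ ℓ) (ub : LaurentSeries (ResidueField A)) := by
    rw [← e2]; rfl
  have hwb0 : wb ≠ 0 := mul_ne_zero (pow_ne_zero _ ((map_ne_zero _).mpr hub))
    ((map_ne_zero _).mpr hub)
  rw [← hwb] at hL hRR
  have hRR' : Rd A ((gal N τ (cF * u) * gal N τ⁻¹ (cF * u) ^ ℓ : modularFunctionFieldFullC Qbar N) : LaurentSeries Qbar) wb := by
    have : ((gal N τ (cF * u) * gal N τ⁻¹ (cF * u) ^ ℓ : modularFunctionFieldFullC Qbar N) : LaurentSeries Qbar) =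
      (coeffMap (τ⁻¹ : GQ) ((cF * u : modularFunctionFieldFullC Qbar N) : LaurentSeries Qbar)) ^ ℓ *
        (coeffMap (τ : Qbar →+* Qbar) ((cF * u : modularFunctionFieldFullC Qbar N) : LaurentSeries Qbar)) := by
      rw [mul_comm]
      rfl
    rw [this]
    exact hRR
  have hcu0 : cF * u ≠ 0 := mul_ne_zero hcF0 hu0
  have hcu : Dv m (cF * u) := Dv.const.mul hcF0 hu0 hu
  have hv0 : v ≠ 0 := by
    intro h
    have : (v : LaurentSeries Qbar) = 0 := congrArg Subtype.val h
    rw [huv] at this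
    exact hM_ne_zero ℓ (fun h => hu0 (Subtype.ext h)) this
  have hc10 : c1 ≠ 0 := by rw [hc1, Ne, map_eq_zero]; exact pow_ne_zero _ hc
  have key : Cg m (c1 * v) (gal N τ (cF * u) * gal N τ⁻¹ (cF * u) ^ ℓ) := by
    refine H.cg_of_red hm (Dv.const.mul hc10 hv0 hv) ?_ hwb0 hL hRR'
    exact (hcu.gal τ).mul ((map_ne_zero _).mpr hcu0)
      (pow_ne_zero _ ((map_ne_zero _).mpr hcu0)) ((hcu.gal τ⁻¹).pow ℓ)
  -- removing the constants
  have k1 : Cg m v (c1 * v) := by
    have := (Cg.const (N := N) hm (pow_ne_zero (ℓ + 1) hc)).symm.mul (Cg.refl v)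
    rwa [one_mul] at this
  have k2 : Cg m (cF * u) u := by
    have := (Cg.const (N := N) hm hc).mul (Cg.refl u)
    rwa [one_mul] at this
  exact (k1.trans key).trans ((k2.gal τ).mul ((k2.gal τ⁻¹).pow ℓ))

/-- inertia acts trivially on classes modulo `m`-th powers -/
theorem RedHyp.inertia_cg (H : RedHyp A N m) (hm : m ≠ 0) {σ : GQ}
    (hσ : σ ∈ A.inertiaSubgroupIn ℚ) {u : modularFunctionFieldFullC Qbar N} (hu0 : u ≠ 0)
    (hu : Dv m u) : Cg m (gal N σ u) u := by
  obtain ⟨c, hc, ub, hub, hR⟩ := H.scale u hu0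
  set cF : modularFunctionFieldFullC Qbar N := algebraMap Qbar (modularFunctionFieldFullC Qbar N) c with hcF
  have hcF0 : cF ≠ 0 := by rw [hcF, Ne, map_eq_zero]; exact hc
  obtain ⟨hdec, hact⟩ := actK_inertia hσ
  have hR1 := hR.gal σ hdec
  have e1 : coeffMap (actK σ hdec : _ →+* ResidueField A) (ub : LaurentSeries (ResidueField A)) =
      ub := by
    ext n
    simp only [coeffMap_coeff]
    exact hact _
  rw [e1] at hR1
  have hcu : Dv m (cF * u) := Dv.const.mul hcF0 hu0 hu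
  have key : Cg m (gal N σ (cF * u)) (cF * u) := H.cg_of_red hm (hcu.gal σ) hcu hub hR1 hR
  have k2 : Cg m (cF * u) u := by
    have := (Cg.const (N := N) hm hc).mul (Cg.refl u)
    rwa [one_mul] at this
  exact ((k2.gal σ).symm.trans key).trans k2

end Fermat.Agent.HeckeQ
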