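import Mathlib
import Fermat.Agent.HeckeQ.ES
import Fermat.Agent.AnJac.HD
import Fermat.Agent.GoodRed.KLAll

set_option autoImplicit false
set_option maxHeartbeats 400000

/-!
# Good reduction implies the Eichler-Shimura input
-/

namespace Fermat.Agent.HeckeQ

open ModularCurve Fermat.Agent.ModFun Fermat.Agent.AnJac AlgebraicCurve IsLocalRing
open Fermat.Agent.Curves Fermat.Agent.GoodRed
open scoped Pointwise

local notation "Qbar" => AlgebraicClosure ℚ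
local notation "GQ" => Qbar ≃ₐ[ℚ] Qbar

theorem algebraic_int_Qbar : @Algebra.IsAlgebraic ℤ Qbar _ _ (Ring.toIntAlgebra Qbar) := by
  haveI : Algebra.IsAlgebraic ℚ Qbar := AlgebraicClosure.isAlgebraic ℚ
  have h : Algebra.IsAlgebraic ℤ Qbar :=
    (IsFractionRing.comap_isAlgebraic_iff (A := ℤ) (K := ℚ) (C := Qbar)).mpr inferInstance
  convert h
  exact Subsingleton.elim _ _

/-- the reduction input from good charts -/
theorem redHyp_of_hasGood {A : ValuationSubring Qbar} {ℓ : ℕ} (hℓ : ℓ.Prime)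
    (hA : A.LiesOverPrime ℓ) {N : ℕ} (hG : HasGood (residue A) N) {m : ℕ} (hm : ¬ ℓ ∣ m) :
    RedHyp A N m where
  scale u hu := by
    obtain ⟨hπ, hNK, hNκ, -⟩ := hG
    obtain ⟨c, hc, h, hne⟩ := (modGauss (residue A) N hπ hNK hNκ).scale u hu
    exact ⟨c, hc, _, hne, (modGauss_R (residue A) N).mp ⟨h, rfl⟩⟩
  kl u hu gb hgb hR := by
    haveI := FrobDens.charP_residueField A hℓ hA
    have hr : RankOne (residue A) := @rankOne_of_liesOver Qbar _ A _ algebraic_int_Qbar ℓ hℓ hA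
    have hmκ : (m : ResidueField A) ≠ 0 := by
      rw [Ne, CharP.cast_eq_zero_iff _ ℓ]
      exact hm
    exact hG.isPow (residue A) N hr hmκ (ub := gb ^ m) (gb := gb)
      (c := 1) hR (pow_ne_zero m hgb) (by rw [map_one, one_mul]) hu

lemma prod_zmod {M : Type*} [CommMonoid M] (p : ℕ) [NeZero p] (F : ℕ → M) :
    ∏ x : ZMod p, F x.val = ∏ j ∈ Finset.range p, F j := by
  obtain ⟨k, rfl⟩ : ∃ k, p = k + 1 := Nat.exists_eq_succ_of_ne_zero (NeZero.ne p)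
  exact Fin.prod_univ_eq_prod_range F (k + 1)

lemma heckeMul_eq_hM {ℓ : ℕ} [NeZero ℓ] {ζ : Qbarˣ} (hζ : IsPrimitiveRoot ζ ℓ)
    (u : LaurentSeries Qbar) : heckeMul ζ ℓ u = hM ℓ u := by
  rw [heckeMul, hM]
  congr 1
  apply heckeW_eq hζ
  rw [qExpand_hW, prodTwist_eq_range ℓ hζ, AnJac.tprod_apply]
  exact (prod_zmod ℓ fun j => twist (ζ ^ j) u).symm

/-- `T_ℓ` preserves the functions with divisor divisible by `n` -/
lemma Dv_heckeMul {N : ℕ} [NeZero N] {ℓ : ℕ} [NeZero ℓ] (hℓ : ℓ.Prime) (hℓN : ¬ ℓ ∣ N)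
    {ζ : Qbarˣ} (hζ : IsPrimitiveRoot ζ ℓ) {n : ℕ} (hn : n ≠ 0)
    {u : modularFunctionFieldFullC Qbar N} (hu0 : u ≠ 0) (hu : Dv n u) :
    ∃ v : modularFunctionFieldFullC Qbar N, (v : LaurentSeries Qbar) =
      heckeMul ζ ℓ (u : LaurentSeries Qbar) ∧ Dv n v := by
  haveI : Fact ℓ.Prime := ⟨hℓ⟩
  obtain ⟨φ, hφ⟩ := exists_ClX (N := N) ιQ hn hu0 hu
  have h := compat_LT (N := N) ιQ fQ hℓN hζ φ u hφ
  exact ⟨FT ιQ hℓN hζ u, rfl, fun v => ClX.dvd_ord ιQ h v⟩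

/-- the reduction input at all primes not dividing the level -/
theorem redHyp_all {A : ValuationSubring Qbar} {ℓ : ℕ} (hℓ : ℓ.Prime)
    (hA : A.LiesOverPrime ℓ) {N : ℕ} (hN : ¬ ℓ ∣ N) {m : ℕ} (hm : ¬ ℓ ∣ m) :
    RedHyp A N m := by
  haveI := FrobDens.charP_residueField A hℓ hA
  have hN0 : N ≠ 0 := fun h => hN (h ▸ dvd_zero ℓ)
  have hNK : (N : Qbar) ≠ 0 := by exact_mod_cast hN0
  have hNκ : (N : ResidueField A) ≠ 0 := by
    rw [Ne, CharP.cast_eq_zero_iff _ ℓ]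
    exact hN
  have hmκ : (m : ResidueField A) ≠ 0 := by
    rw [Ne, CharP.cast_eq_zero_iff _ ℓ]
    exact hm
  have hr : RankOne (residue A) := @rankOne_of_liesOver Qbar _ A _ algebraic_int_Qbar ℓ hℓ hA
  refine ⟨fun u hu => ?_, fun u hu gb hgb hR => ?_⟩
  · obtain ⟨c, hc, h, hne⟩ := (modGauss (residue A) N residue_surjective hNK hNκ).scale u hu
    exact ⟨c, hc, _, hne, (modGauss_R (residue A) N).mp ⟨h, rfl⟩⟩
  · have hgb' : (gb : LaurentSeries (ResidueField A)) ≠ 0 := fun h => hgb (Subtype.ext h)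
    obtain ⟨w, hw, hw'⟩ := modKummer (residue A) N ιQ residue_surjective hNκ hr hmκ u.2
      (ub := (gb : LaurentSeries (ResidueField A)) ^ m) (gb := gb) (pow_mem gb.2 m) gb.2
      (c := 1) hR (pow_ne_zero m hgb') (by rw [map_one, one_mul]) hu
    exact ⟨⟨w, hw⟩, Subtype.ext hw'⟩

/-- the Eichler-Shimura input -/
theorem esHyp_of_redHyp (N p : ℕ) [NeZero N] [hp : Fact p.Prime]
    (hG : ∀ ℓ : ℕ, ℓ.Prime → ¬ ℓ ∣ N → ∀ A : ValuationSubring Qbar, A.LiesOverPrime ℓ →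
      ∀ m : ℕ, ¬ ℓ ∣ m → RedHyp A N m) : ESHyp N p where
  frob ℓ _ hℓ hℓN ζ hζ A hA τ hτ n u hu0 hu := by
    have h1 : ¬ ℓ ∣ N := fun h => hℓN (h.mul_right p)
    have h2 : ¬ ℓ ∣ p ^ n := fun h => hℓN ((hℓ.dvd_of_dvd_pow h).mul_left N)
    have hpn : p ^ n ≠ 0 := pow_ne_zero n hp.out.ne_zero
    have H := hG ℓ hℓ h1 A hA _ h2
    obtain ⟨v, hv, hvD⟩ := Dv_heckeMul hℓ h1 hζ hpn hu0 hu
    obtain ⟨g, hg, hg'⟩ := H.hM_cg hpn hℓ hA hτ hu0 hu hvD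
      (by rw [hv, heckeMul_eq_hM hζ])
    refine ⟨g, hg, ?_⟩
    rw [← hv, hg']
    rfl
  inert q hq hqN A hA σ hσ n u hu0 hu := by
    have h1 : ¬ q ∣ N := fun h => hqN (h.mul_right p)
    have h2 : ¬ q ∣ p ^ n := fun h => hqN ((hq.dvd_of_dvd_pow h).mul_left N)
    have hpn : p ^ n ≠ 0 := pow_ne_zero n hp.out.ne_zero
    have H := hG q hq h1 A hA _ h2
    obtain ⟨g, hg, hg'⟩ := H.inertia_cg hpn hσ hu0 hu
    exact ⟨g, hg, congrArg Subtype.val hg'⟩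

/-- **the Eichler-Shimura relation and good reduction for `X₀(N)`** -/
theorem esHyp (N p : ℕ) [NeZero N] [Fact p.Prime] : ESHyp N p :=
  esHyp_of_redHyp N p fun _ hℓ hℓN _ hA _ hm => redHyp_all hℓ hA hℓN hm

end Fermat.Agent.HeckeQ
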